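import Mathlib
import Fermat.Agent.FF2.SF.Reduced
import Fermat.Agent.FF2.FQD.ChordDescentHom
import Fermat.Agent.FF2.Chord.Lift
import Fermat.Agent.FF2.HChord.Congruence

/-!
# MOONSHOT S19, node N1 = (F5-SF-final): the special-fibre package of the two chords for
`H := G.honest …` (helper2)

`G : SF.GeoData S j Z ι` (helper15), `hJ : NS.ChordOneJets … / NS.ChordTwoJets …` (helper15),
`hρ : ∀ w ∈ 𝔪_W, π (j w) = 0`.  Chain:
`G.chordOne_facts / G.chordTwo_facts` (facts over `k`, helper15)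
→ `FQD.chord_residue_descent_of_hom` at `ρ := π.comp j` (helper1)
→ `Chord.exists_lift_f0` (helper2)
⇒ `hcard ∧ H1 ∧ ∃ f0, hf0u ∧ hf0 ∧ hO0 ∧ hO1` in the exact binder shapes of
`HChord.HonestData.chord_congruence` / `G4.addFun_congruence` / `G4.x_add_congruence`.

* `chordOne_package`, `chordTwo_package` : the packages;
* `chordOne_congruence`, `chordTwo_congruence` : `HonestData.chord_congruence` for
  `H := G.honest …` with the package discharged.
-/

set_option autoImplicit false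
set_option linter.unusedSectionVars false

namespace Fermat.Agent.FF2.SFfin

open AlgebraicCurve Fermat.Agent.Red Fermat.Agent.X0 Fermat.Agent.FF2.Disc
  Fermat.Agent.FF2.Chord Fermat.Agent.FF2.HChord Fermat.Agent.FF2.NS Fermat.Agent.FF2.SF
  IsLocalRing Module

variable {K F k Ft : Type*} [Field K] [Field F] [Algebra K F] [Field k] [Field Ft]
  [Algebra k Ft] {A : ValuationSubring K} {π : A →+* k}

variable {W : Type*} [CommRing W] [IsLocalRing W]

variable {S : RedSetup (F := F) (Ft := Ft) A π} {j : W →+* A} {Z : Set (Place K F)}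
  {ι : Type*} [Fintype ι] (G : GeoData S j Z ι) (hF : RiemannPkg K F) (hFt : RiemannPkg k Ft)
  (hρ : ∀ w ∈ maximalIdeal W, π (j w) = 0)
  {g : ℕ} {Pinfb : Place k Ft} {m : ℕ} {Pb Pb' : Fin g → Place k Ft} {Rb : Divisor k Ft}

include hF hFt hρ

/-- **(N1), first chord: the special-fibre package** for
`Y1 := G.chordData Pb (fun e : E => isEmptyElim e) Pb' Rb …`. -/
theorem chordOne_package {f₀ : Ft} (hJ : ChordOneJets Pinfb m Pb Pb' f₀ Rb)
    (E : Type*) [Fintype E] [IsEmpty E]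
    (hPb : ∀ d, Pb d ∈ G.rel) (hPb' : ∀ o, Pb' o ∈ G.rel)
    (hR : ∀ Q : {Q : Place k Ft // Q ∈ Rb.support}, Q.1 ∈ G.rel)
    (hli : LinearIndependent k fun i => S.resF (G.e i))
    (hmem : ∀ i, S.resF (G.e i) ∈ riemannRochSpace (Finsupp.single Pinfb (m : ℤ)))
    (hcard : Fintype.card ι = finrank k (riemannRochSpace (Finsupp.single Pinfb (m : ℤ)))) :
    Fintype.card ι = Fintype.card (Fin g ⊕ Fin g ⊕ E ⊕ JetIdx Rb) + 1 ∧
    Function.Surjective ((cond0 (G.chordData Pb (fun e : E => isEmptyElim e) Pb' Rb hPb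
      (fun e => isEmptyElim e) hPb' hR)).map (residue W)).mulVecLin ∧
    ∃ f0 : ι → W, (∃ i, IsUnit (f0 i)) ∧
      (∀ c, (cond0 (G.chordData Pb (fun e : E => isEmptyElim e) Pb' Rb hPb
        (fun e => isEmptyElim e) hPb' hR)).mulVec f0 c ∈ maximalIdeal W) ∧
      (∀ o, ∑ i, f0 i * PowerSeries.coeff 0 ((G.chordData Pb (fun e : E => isEmptyElim e) Pb' Rb
        hPb (fun e => isEmptyElim e) hPb' hR).τO o i) ∈ maximalIdeal W) ∧
      (∀ o, IsUnit (∑ i, f0 i * PowerSeries.coeff 1 ((G.chordData Pb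
        (fun e : E => isEmptyElim e) Pb' Rb hPb (fun e => isEmptyElim e) hPb' hR).τO o i))) := by
  classical
  obtain ⟨hc, H1k, fbk, hne, -, hker, hO0, hO1⟩ :=
    G.chordOne_facts hF hFt hJ E hPb hPb' hR hli hmem hcard
  obtain ⟨H1, fb, hfb, hfbker, hfbO0, hfbO1⟩ :=
    FQD.chord_residue_descent_of_hom _ (π.comp j) hρ hc H1k fbk hne hker hO0 hO1
  exact ⟨hc, H1, exists_lift_f0 _ fb hfb hfbker hfbO0 hfbO1⟩

/-- **(N1), return chord: the special-fibre package** for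
`Y2 := G.chordData (fun e : E => isEmptyElim e) Pb' Pb Rb …`. -/
theorem chordTwo_package {f₁ : Ft} (hJ : ChordTwoJets Pinfb m Pb Pb' f₁ Rb)
    (E : Type*) [Fintype E] [IsEmpty E]
    (hPb : ∀ d, Pb d ∈ G.rel) (hPb' : ∀ o, Pb' o ∈ G.rel)
    (hR : ∀ Q : {Q : Place k Ft // Q ∈ Rb.support}, Q.1 ∈ G.rel)
    (hli : LinearIndependent k fun i => S.resF (G.e i))
    (hmem : ∀ i, S.resF (G.e i) ∈ riemannRochSpace (Finsupp.single Pinfb (m : ℤ)))
    (hcard : Fintype.card ι = finrank k (riemannRochSpace (Finsupp.single Pinfb (m : ℤ)))) :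
    Fintype.card ι = Fintype.card (E ⊕ E ⊕ Fin g ⊕ JetIdx Rb) + 1 ∧
    Function.Surjective ((cond0 (G.chordData (fun e : E => isEmptyElim e) Pb' Pb Rb
      (fun e => isEmptyElim e) hPb' hPb hR)).map (residue W)).mulVecLin ∧
    ∃ f0 : ι → W, (∃ i, IsUnit (f0 i)) ∧
      (∀ c, (cond0 (G.chordData (fun e : E => isEmptyElim e) Pb' Pb Rb
        (fun e => isEmptyElim e) hPb' hPb hR)).mulVec f0 c ∈ maximalIdeal W) ∧
      (∀ o, ∑ i, f0 i * PowerSeries.coeff 0 ((G.chordData (fun e : E => isEmptyElim e) Pb' Pb Rb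
        (fun e => isEmptyElim e) hPb' hPb hR).τO o i) ∈ maximalIdeal W) ∧
      (∀ o, IsUnit (∑ i, f0 i * PowerSeries.coeff 1 ((G.chordData
        (fun e : E => isEmptyElim e) Pb' Pb Rb (fun e => isEmptyElim e) hPb' hPb hR).τO o i))) := by
  classical
  obtain ⟨hc, H1k, fbk, hne, -, hker, hO0, hO1⟩ :=
    G.chordTwo_facts hF hFt hJ E hPb hPb' hR hli hmem hcard
  obtain ⟨H1, fb, hfb, hfbker, hfbO0, hfbO1⟩ :=
    FQD.chord_residue_descent_of_hom _ (π.comp j) hρ hc H1k fbk hne hker hO0 hO1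
  exact ⟨hc, H1, exists_lift_f0 _ fb hfb hfbker hfbO0 hfbO1⟩

end Fermat.Agent.FF2.SFfin
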