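import Mathlib
import Fermat.Agent.FF2.SFfin.Final
import Fermat.Agent.FF2.G4.AddCongr

/-!
# MOONSHOT S19, node N1 + F6-b glue: the addition congruence from TWO `GeoData` (one per lattice)

`x_add_congruence_of_geoData` = helper22's `G4.x_add_congruence` with `H1 := G1.honest …`,
`H2 := G2.honest …` (helper15) and the two special-fibre packages discharged by
`chordOne_package` / `chordTwo_package`.  Remaining hypotheses = pure geometry
(`hspan`, `hZinf`, `hν`, equality of the parameters with those of the `CoordData`).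
-/

set_option autoImplicit false
set_option linter.unusedSectionVars false

namespace Fermat.Agent.FF2.SFfin

open AlgebraicCurve Module Fermat.Agent.Red Fermat.Agent.FF2.G2 Fermat.Agent.FF2.Disc
  Fermat.Agent.FF2.HChord IsLocalRing Fermat.Agent.FF2.SF Fermat.Agent.FF2.NS Fermat.Agent.FF2

variable {K F k Ft : Type*} [Field K] [Field F] [Algebra K F] [Field k] [Field Ft]
  [Algebra k Ft] {A : ValuationSubring K} {π : A →+* k}
  {S : RedSetup (F := F) (Ft := Ft) A π}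
  {g : ℕ} {C C' : ChartData S g} (X1 : GC.ChordData C' (g + g)) (X2 : GC.ChordData C g)
  (X : CoordData C) (X' : CoordData C')
  (hπ : Function.Surjective π) (hF : RiemannPkg K F) (hFt : RiemannPkg k Ft)
  (hg : genusFF K F ≤ g)
  (hQ1 : ∀ i, X1.Qb i = Fin.append C.Pb C.Pb i) (hQ2 : ∀ j, X2.Qb j = C'.Pb j)
  {W : Type*} [CommRing W] [IsLocalRing W] [Algebra W A] {j : W →+* A}
  (hj : ∀ w : W, algebraMap W A w = j w)
  (hρ : ∀ w ∈ maximalIdeal W, π (j w) = 0)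
  {ι₁ ι₂ : Type*} [Fintype ι₁] [Fintype ι₂] {Z1 Z2 : Set (Place K F)}
  (G1 : GeoData S j Z1 ι₁) (G2 : GeoData S j Z2 ι₂)
  {Rb1 Rb2 : Divisor k Ft}
  (hJ1 : ChordOneJets (S.r X1.Pinf) X1.m C.Pb C'.Pb X1.f0b Rb1)
  (hJ2 : ChordTwoJets (S.r X2.Pinf) X2.m C.Pb C'.Pb X2.f0b Rb2)
  (hPb1 : ∀ d, C.Pb d ∈ G1.rel) (hPb'1 : ∀ o, C'.Pb o ∈ G1.rel)
  (hR1' : ∀ Q : {Q : Place k Ft // Q ∈ Rb1.support}, Q.1 ∈ G1.rel)
  (hli1 : LinearIndependent k fun i => S.resF (G1.e i))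
  (hmem1 : ∀ i, S.resF (G1.e i) ∈ riemannRochSpace (Finsupp.single (S.r X1.Pinf) (X1.m : ℤ)))
  (hcard1 : Fintype.card ι₁ = finrank k (riemannRochSpace (Finsupp.single (S.r X1.Pinf) (X1.m : ℤ))))
  (hPb2 : ∀ d, C.Pb d ∈ G2.rel) (hPb'2 : ∀ o, C'.Pb o ∈ G2.rel)
  (hR2' : ∀ Q : {Q : Place k Ft // Q ∈ Rb2.support}, Q.1 ∈ G2.rel)
  (hli2 : LinearIndependent k fun i => S.resF (G2.e i))
  (hmem2 : ∀ i, S.resF (G2.e i) ∈ riemannRochSpace (Finsupp.single (S.r X2.Pinf) (X2.m : ℤ)))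
  (hcard2 : Fintype.card ι₂ = finrank k (riemannRochSpace (Finsupp.single (S.r X2.Pinf) (X2.m : ℤ))))

include hρ hJ1 hJ2 hli1 hmem1 hcard1 hli2 hmem2 hcard2 hj hQ1 hQ2 hπ hPb1 hPb'1 hR1' hPb2 hPb'2 hR2' in
/-- **The addition congruence on the kernel of reduction, from two `GeoData`.** -/
theorem x_add_congruence_of_geoData (N : ℕ)
    (hR1 : 0 ≤ X1.R)
    (hspan1 : riemannRochSpace (Finsupp.single X1.Pinf (X1.m : ℤ)) ≤
      Submodule.span K (Set.range G1.e))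
    (hZinf1 : X1.Pinf ∈ Z1)
    (hν1 : ∀ x : JetIdx Rb1, ((x.2 : ℕ) : ℤ) < X1.R (G1.Cof x.1.1).P₀)
    (hCD1t : ∀ d, (G1.Cof (C.Pb d)).t = (X.T d).t)
    (hCO1t : ∀ o, (G1.Cof (C'.Pb o)).t = (X'.T o).t)
    (hR2 : 0 ≤ X2.R)
    (hspan2 : riemannRochSpace (Finsupp.single X2.Pinf (X2.m : ℤ)) ≤
      Submodule.span K (Set.range G2.e))
    (hZinf2 : X2.Pinf ∈ Z2)
    (hν2 : ∀ x : JetIdx Rb2, ((x.2 : ℕ) : ℤ) < X2.R (G2.Cof x.1.1).P₀)
    (hCS2t : ∀ o, (G2.Cof (C'.Pb o)).t = (X'.T o).t)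
    (hCO2t : ∀ o, (G2.Cof (C.Pb o)).t = (X.T o).t) :
    ∃ Q : Fin g → MvPolynomial (Fin g ⊕ Fin g) W,
      ∀ (J : Ideal A) (_hWJ : ∀ w ∈ maximalIdeal W, algebraMap W A w ∈ J)
        {D D' : Divisor K F} (_hD : D ∈ kerRed S) (_hD' : D' ∈ kerRed S)
        (_hxD : ∀ d, ((X.x hF hFt hg D d : {c : A // π c = 0}) : A) ∈ J)
        (_hxD' : ∀ d, ((X.x hF hFt hg D' d : {c : A // π c = 0}) : A) ∈ J)
        (_hmid : ∀ o, ((X'.x hF hFt hg (G4.midConst C X1 - D - D') o : {c : A // π c = 0}) : A) ∈ J)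
        (_hout : ∀ o,
          ((X.x hF hFt hg (D + D' + G4.twoChordConst X1 X2) o : {c : A // π c = 0}) : A) ∈ J)
        (o : Fin g),
        ((X.x hF hFt hg (D + D' + G4.twoChordConst X1 X2) o : {c : A // π c = 0}) : A) -
          MvPolynomial.aeval (Sum.elim
            (fun d => ((X.x hF hFt hg D d : {c : A // π c = 0}) : A))
            (fun d => ((X.x hF hFt hg D' d : {c : A // π c = 0}) : A))) (Q o) ∈ J ^ (N + 1) := by
  classical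
  obtain ⟨hc1, H11, f01, hu1, hf01, hO01, hO11⟩ :=
    chordOne_package G1 hF hFt hρ hJ1 Empty hPb1 hPb'1 hR1' hli1 hmem1 hcard1
  obtain ⟨hc2, H12, f02, hu2, hf02, hO02, hO12⟩ :=
    chordTwo_package G2 hF hFt hρ hJ2 Empty hPb2 hPb'2 hR2' hli2 hmem2 hcard2
  exact G4.x_add_congruence X1 X2 X hπ hF hFt hg hQ1 hQ2 hj
    (G1.honest C.Pb (fun e : Empty => isEmptyElim e) C'.Pb Rb1 hPb1 (fun e => isEmptyElim e) hPb'1 hR1')
    (G2.honest (fun e : Empty => isEmptyElim e) C'.Pb C.Pb Rb2 (fun e => isEmptyElim e) hPb'2 hPb2 hR2')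
    X' hc1 H11 f01 hu1 hf01 hO01 hO11 hc2 H12 f02 hu2 hf02 hO02 hO12
    hR1 hspan1 hli1 hZinf1 hν1 (fun d => G1.hCof _ (hPb1 d)) hCD1t (fun o => G1.hCof _ (hPb'1 o)) hCO1t
    hR2 hspan2 hli2 hZinf2 hν2 (fun o => G2.hCof _ (hPb'2 o)) hCS2t (fun o => G2.hCof _ (hPb2 o)) hCO2t N

end Fermat.Agent.FF2.SFfin
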