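import Mathlib
import Fermat.Agent.FF2.NS.JetsFin
import Fermat.Agent.Red.RRReduction

/-!
# MOONSHOT S19, node N1/N7a: the `m`-bookkeeping for a reduced basis of `L(m∞)`

`e : ι → F` a reduced basis of `L(m∞)` (`e i ∈ S.O`, residues `k`-independent,
`K`-span `= L(m∞)`), generic genus `≤ g`, and helper15's special-fibre package giving
`l_k(m·r∞) = m + 1 - g`.  Then ALL basis-side hypotheses of `SF.GeoData.chordOne_facts`,
`SFfin.chordOne_package`, `G4.x_add_congruence` hold:

`basis_facts : (∀ i, e i ∈ S.chart Z) ∧ (∀ i, S.resF (e i) ∈ L_k(m·r∞)) ∧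
   card ι = finrank k L_k(m·r∞) ∧ L(m∞) ≤ span K (range e)`.

No lower bound `c` on `m` is needed (Riemann's inequality on the generic fibre + semicontinuity
`l(E) ≤ l~(r_* E)` + the exact value on the special fibre).
-/

set_option autoImplicit false
set_option linter.unusedSectionVars false

namespace Fermat.Agent.FF2.SFfin

open AlgebraicCurve Fermat.Agent.Red Fermat.Agent.X0 Fermat.Agent.FF2.NS Module

variable {K F k Ft : Type*} [Field K] [Field F] [Algebra K F] [Field k] [Field Ft]
  [Algebra k Ft] {A : ValuationSubring K} {π : A →+* k}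
  {S : RedSetup (F := F) (Ft := Ft) A π} {ι : Type*} [Fintype ι]

/-- `l_k(m·∞~) = m + 1 - g` from helper15's first-chord package. -/
theorem ChordOneJets.finrank_special {g : ℕ} {Qinf : Place k Ft} {m : ℕ}
    {Pb Pb' : Fin g → Place k Ft} {f₀ : Ft} {R₀ : Divisor k Ft}
    (hJ : ChordOneJets Qinf m Pb Pb' f₀ R₀) :
    (finrank k (riemannRochSpace (Finsupp.single Qinf (m : ℤ))) : ℤ) = m + 1 - g := by
  rw [hJ.finrank_eq, hJ.degree_eq]
  ring

/-- `l_k(m·∞~) = m + 1 - g` from helper15's return-chord package. -/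
theorem ChordTwoJets.finrank_special {g : ℕ} {Qinf : Place k Ft} {m : ℕ}
    {Pb Pb' : Fin g → Place k Ft} {f₁ : Ft} {R₁ : Divisor k Ft}
    (hJ : ChordTwoJets Qinf m Pb Pb' f₁ R₁) :
    (finrank k (riemannRochSpace (Finsupp.single Qinf (m : ℤ))) : ℤ) = m + 1 - g := by
  rw [hJ.finrank_eq, hJ.degree_eq]
  ring

/-- **The basis-side hypotheses of the chord packages.** -/
theorem basis_facts (hπ : Function.Surjective π) (hF : RiemannPkg K F) (hFt : RiemannPkg k Ft)
    {Pinf : Place K F} {m g : ℕ} (hg : genusFF K F ≤ g)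
    (hl : (finrank k (riemannRochSpace (Finsupp.single (S.r Pinf) (m : ℤ))) : ℤ) = m + 1 - g)
    (e : ι → F) (heO : ∀ i, e i ∈ S.O) (hind : LinearIndependent k fun i => S.resF (e i))
    (hspan : Submodule.span K (Set.range e) = riemannRochSpace (Finsupp.single Pinf (m : ℤ)))
    {Z : Set (Place K F)} (hZ : Pinf ∈ Z) :
    (∀ i, e i ∈ S.chart Z) ∧
    (∀ i, S.resF (e i) ∈ riemannRochSpace (Finsupp.single (S.r Pinf) (m : ℤ))) ∧
    Fintype.card ι = finrank k (riemannRochSpace (Finsupp.single (S.r Pinf) (m : ℤ))) ∧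
    riemannRochSpace (Finsupp.single Pinf (m : ℤ)) ≤ Submodule.span K (Set.range e) := by
  classical
  have heL : ∀ i, e i ∈ riemannRochSpace (Finsupp.single Pinf (m : ℤ)) := fun i => by
    rw [← hspan]
    exact Submodule.subset_span ⟨i, rfl⟩
  refine ⟨fun i => ?_, fun i => ?_, ?_, hspan.ge⟩
  · refine S.mem_chart.2 ⟨heO i, mem_regularRing_iff_mem_regularOutside.2
      (riemannRochSpace_le_regularOutside_zero (fun P hP => ?_) (heL i))⟩
    rw [Finsupp.single_apply, if_neg]
    rintro rfl
    exact hP hZ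
  · have := S.resF_mem_riemannRochSpace hF _ (heL i)
    rwa [Finsupp.mapDomain_single] at this
  · have hK : LinearIndependent K e := S.linearIndependent_of_resF e heO hind
    have hcardK : Fintype.card ι = finrank K (riemannRochSpace (Finsupp.single Pinf (m : ℤ))) := by
      rw [← hspan, finrank_span_eq_card hK]
    rw [hcardK]
    have h1 := S.finrank_riemannRochSpace_le hπ hF hFt (Finsupp.single Pinf (m : ℤ))
    rw [Finsupp.mapDomain_single] at h1
    have h2 := hF.riemann_le (Finsupp.single Pinf (m : ℤ))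
    rw [degree_single_of_pkg hF] at h2
    have hg' : (genusFF K F : ℤ) ≤ g := by exact_mod_cast hg
    have h3 : (finrank k (riemannRochSpace (Finsupp.single (S.r Pinf) (m : ℤ))) : ℤ)
        ≤ finrank K (riemannRochSpace (Finsupp.single Pinf (m : ℤ))) := by
      rw [hl]
      linarith
    have h4 : finrank k (riemannRochSpace (Finsupp.single (S.r Pinf) (m : ℤ)))
        ≤ finrank K (riemannRochSpace (Finsupp.single Pinf (m : ℤ))) := by exact_mod_cast h3
    omega

end Fermat.Agent.FF2.SFfin
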