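import Mathlib
import Fermat.Agent.FF2.SFfin.AddGeo
import Fermat.Agent.FF2.SFfin.Basis

/-!
# MOONSHOT S19, node N1/N7a: the addition congruence from ONE `GeoData` (one lattice `L(m∞)`)

`x_add_congruence_one` : both chords use the same pole `∞` and the same `m`
(`X2.Pinf = X1.Pinf`, `X2.m = X1.m`), ONE `G : SF.GeoData S j Z ι` whose `G.e` is a reduced basis of
`L(m∞)` (`hO`, `hind`, `hspan`), `∞ ∈ Z`.  All basis-side hypotheses (`he`, `hli`, `hmem`, `hcard`,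
`hspan ≤`) are derived by `basis_facts`; the four parameter equalities reduce to two.
-/

set_option autoImplicit false
set_option linter.unusedSectionVars false

namespace Fermat.Agent.FF2.SFfin

open AlgebraicCurve Module Fermat.Agent.Red Fermat.Agent.FF2.G2 Fermat.Agent.FF2.Disc
  Fermat.Agent.FF2.HChord IsLocalRing Fermat.Agent.FF2.SF Fermat.Agent.FF2.NS Fermat.Agent.FF2

variable {K F k Ft : Type*} [Field K] [Field F] [Algebra K F] [Field k] [Field Ft]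
  [Algebra k Ft] {A : ValuationSubring K} {π : A →+* k}
  {S : RedSetup (F := F) (Ft := Ft) A π}
  {g : ℕ} {C C' : ChartData S g}

/-- **The addition congruence from ONE `GeoData`.** -/
theorem x_add_congruence_one (X1 : GC.ChordData C' (g + g)) (X2 : GC.ChordData C g)
    (X : CoordData C) (X' : CoordData C')
    (hπ : Function.Surjective π) (hF : RiemannPkg K F) (hFt : RiemannPkg k Ft)
    (hg : genusFF K F ≤ g)
    (hQ1 : ∀ i, X1.Qb i = Fin.append C.Pb C.Pb i) (hQ2 : ∀ j, X2.Qb j = C'.Pb j)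
    {W : Type*} [CommRing W] [IsLocalRing W] [Algebra W A] {j : W →+* A}
    (hj : ∀ w : W, algebraMap W A w = j w)
    (hρ : ∀ w ∈ maximalIdeal W, π (j w) = 0)
    {ι : Type*} [Fintype ι] {Z : Set (Place K F)} (G : GeoData S j Z ι)
    (hP2 : X2.Pinf = X1.Pinf) (hm2 : X2.m = X1.m)
    {Rb1 Rb2 : Divisor k Ft}
    (hJ1 : ChordOneJets (S.r X1.Pinf) X1.m C.Pb C'.Pb X1.f0b Rb1)
    (hJ2 : ChordTwoJets (S.r X1.Pinf) X1.m C.Pb C'.Pb X2.f0b Rb2)
    (hPb : ∀ d, C.Pb d ∈ G.rel) (hPb' : ∀ o, C'.Pb o ∈ G.rel)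
    (hRb1 : ∀ Q : {Q : Place k Ft // Q ∈ Rb1.support}, Q.1 ∈ G.rel)
    (hRb2 : ∀ Q : {Q : Place k Ft // Q ∈ Rb2.support}, Q.1 ∈ G.rel)
    (heO : ∀ i, G.e i ∈ S.O) (hind : LinearIndependent k fun i => S.resF (G.e i))
    (hspan : Submodule.span K (Set.range G.e)
      = riemannRochSpace (Finsupp.single X1.Pinf (X1.m : ℤ)))
    (hZinf : X1.Pinf ∈ Z)
    (hR1 : 0 ≤ X1.R) (hν1 : ∀ x : JetIdx Rb1, ((x.2 : ℕ) : ℤ) < X1.R (G.Cof x.1.1).P₀)
    (hR2 : 0 ≤ X2.R) (hν2 : ∀ x : JetIdx Rb2, ((x.2 : ℕ) : ℤ) < X2.R (G.Cof x.1.1).P₀)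
    (hT : ∀ d, (G.Cof (C.Pb d)).t = (X.T d).t) (hT' : ∀ o, (G.Cof (C'.Pb o)).t = (X'.T o).t)
    (N : ℕ) :
    ∃ Q : Fin g → MvPolynomial (Fin g ⊕ Fin g) W,
      ∀ (J : Ideal A) (_hWJ : ∀ w ∈ maximalIdeal W, algebraMap W A w ∈ J)
        {D D' : Divisor K F} (_hD : D ∈ kerRed S) (_hD' : D' ∈ kerRed S)
        (_hxD : ∀ d, ((X.x hF hFt hg D d : {c : A // π c = 0}) : A) ∈ J)
        (_hxD' : ∀ d, ((X.x hF hFt hg D' d : {c : A // π c = 0}) : A) ∈ J)
        (_hmid : ∀ o, ((X'.x hF hFt hg (G4.midConst C X1 - D - D') o : {c : A // π c = 0}) : A) ∈ J)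
        (_hout : ∀ o,
          ((X.x hF hFt hg (D + D' + G4.twoChordConst X1 X2) o : {c : A // π c = 0}) : A) ∈ J)
        (o : Fin g),
        ((X.x hF hFt hg (D + D' + G4.twoChordConst X1 X2) o : {c : A // π c = 0}) : A) -
          MvPolynomial.aeval (Sum.elim
            (fun d => ((X.x hF hFt hg D d : {c : A // π c = 0}) : A))
            (fun d => ((X.x hF hFt hg D' d : {c : A // π c = 0}) : A))) (Q o) ∈ J ^ (N + 1) := by
  obtain ⟨-, hmem, hcard, hle⟩ := basis_facts hπ hF hFt hg (ChordOneJets.finrank_special hJ1) G.e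
    heO hind hspan hZinf
  have hJ2' : ChordTwoJets (S.r X2.Pinf) X2.m C.Pb C'.Pb X2.f0b Rb2 := by
    rw [hP2, hm2]; exact hJ2
  have hmem2 : ∀ i, S.resF (G.e i) ∈
      riemannRochSpace (Finsupp.single (S.r X2.Pinf) (X2.m : ℤ)) := by
    rw [hP2, hm2]; exact hmem
  have hcard2 : Fintype.card ι
      = finrank k (riemannRochSpace (Finsupp.single (S.r X2.Pinf) (X2.m : ℤ))) := by
    rw [hP2, hm2]; exact hcard
  have hle2 : riemannRochSpace (Finsupp.single X2.Pinf (X2.m : ℤ))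
      ≤ Submodule.span K (Set.range G.e) := by
    rw [hP2, hm2]; exact hle
  have hZinf2 : X2.Pinf ∈ Z := by rw [hP2]; exact hZinf
  exact x_add_congruence_of_geoData X1 X2 X X' hπ hF hFt hg hQ1 hQ2 hj hρ G G hJ1 hJ2'
    hPb hPb' hRb1 hind hmem hcard hPb hPb' hRb2 hind hmem2 hcard2 N
    hR1 hle hZinf hν1 hT hT' hR2 hle2 hZinf2 hν2 hT' hT

end Fermat.Agent.FF2.SFfin
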